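import Fermat.Agent.S25.ZAR.H1891.RigConcrete

/-!
# `rig_glue` for open covers with index type in an arbitrary universe (helper5411, integration)

helper1891's `glue_abstract` / `rig_glue` are stated for index types in `Type u`.  The frozen stub
`glue` quantifies over `𝒰 : T.OpenCover` with an arbitrary index universe.  The reduction is done
at the level of the one-scheme abstract statement: replace the index type by the set of opens
`Set.range U` (in `Type u`), and transport along the given overlap isomorphisms.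
`rig_glue'` is helper1891's proof of `rig_glue` verbatim, with `glue_abstract'` instead of
`glue_abstract`.
-/

set_option autoImplicit false

open CategoryTheory Limits AlgebraicGeometry TopologicalSpace Opposite

universe v u

namespace Fermat.Agent.S25.ZAR.H1891

open Fermat.Agent.S25.ZAR.H4770 AlgebraicGeometry.RelPicard NeronModelInfra

/-- `glue_abstract` for an index type in an arbitrary universe. -/
theorem glue_abstract' {X T : Scheme.{u}} {f : X ⟶ T} {σ : T ⟶ X} (hσ : σ ≫ f = 𝟙 T)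
    (hO : ∀ (W : T.Opens) (a : Γ(X, f ⁻¹ᵁ W)), ∃ b : Γ(T, W), f.app W b = a)
    {ι : Type v} (U : ι → T.Opens) (hU : ⨆ i, U i = ⊤) (D : ∀ i, RigOn f σ (U i))
    (h : ∀ i j, ∃ φ : LocHom (D i).N (D j).N (f ⁻¹ᵁ (U i ⊓ U j)), φ.IsIso) :
    ∃ E : RigOn f σ ⊤, ∀ i, ∃ ψ : LocHom E.N (D i).N (f ⁻¹ᵁ (U i)), ψ.IsIso := by
  classical
  have hrep : ∀ W : Set.range U, ∃ i, U i = W.1 := fun W => W.2
  choose r hr using hrep
  have hU' : ⨆ W : Set.range U, U (r W) = ⊤ := by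
    rw [eq_top_iff, ← hU]
    refine iSup_le fun i => ?_
    exact le_iSup_of_le (⟨U i, i, rfl⟩ : Set.range U) (le_of_eq (hr ⟨U i, i, rfl⟩).symm)
  obtain ⟨E, hE⟩ := glue_abstract hσ hO (fun W : Set.range U => U (r W)) hU'
    (fun W => D (r W)) (fun W W' => h (r W) (r W'))
  refine ⟨E, fun i => ?_⟩
  have hW : U (r ⟨U i, i, rfl⟩) = U i := hr ⟨U i, i, rfl⟩
  obtain ⟨ψ, hψ⟩ := hE ⟨U i, i, rfl⟩
  obtain ⟨φ, hφ⟩ := h (r ⟨U i, i, rfl⟩) i
  have hle : f ⁻¹ᵁ (U i) ≤ f ⁻¹ᵁ (U (r ⟨U i, i, rfl⟩)) := by rw [hW]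
  have hle' : f ⁻¹ᵁ (U i) ≤ f ⁻¹ᵁ (U (r ⟨U i, i, rfl⟩) ⊓ U i) := by rw [hW, inf_idem]
  exact ⟨(ψ.restrict hle).comp (φ.restrict hle'), (hψ.restrict hle).comp (hφ.restrict hle')⟩

section descent

variable {R : Type u} [CommRing R] {C : Scheme.{u}} {c : C ⟶ Spec (CommRingCat.of R)}
  {ε : SchemeHomOver (𝟙 (Spec (CommRingCat.of R))) c}

/-- **(glue)**, index type of the cover in an arbitrary universe.  Proof = helper1891's
`rig_glue` with `glue_abstract'`. -/
theorem rig_glue' (hO : HasGammaSurj c) {T : Scheme.{u}} (t : T ⟶ Spec (CommRingCat.of R))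
    (𝓤 : Scheme.OpenCover.{v, u} T) (M : ∀ i, RigidifiedLineBundle c ε (𝓤.f i ≫ t))
    (h : ∀ i j, Nonempty
      (((M i).pullbackAlong (⟨pullback.fst (𝓤.f i) (𝓤.f j), rfl⟩ :
          SchemeHomOver (pullback.fst (𝓤.f i) (𝓤.f j) ≫ 𝓤.f i ≫ t) (𝓤.f i ≫ t))).L ≅
        ((M j).pullbackAlong (⟨pullback.snd (𝓤.f i) (𝓤.f j),
            by rw [← Category.assoc, ← pullback.condition, Category.assoc]⟩ :
          SchemeHomOver (pullback.fst (𝓤.f i) (𝓤.f j) ≫ 𝓤.f i ≫ t) (𝓤.f j ≫ t))).L)) :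
    ∃ N : RigidifiedLineBundle c ε t, ∀ i, Nonempty
      ((N.pullbackAlong (⟨𝓤.f i, rfl⟩ : SchemeHomOver (𝓤.f i ≫ t) t)).L ≅ (M i).L) := by
  have hσ : rigSection c t ε ≫ pullback.snd c t = 𝟙 T := rigSection_snd t
  let ψ : ∀ i, SchemeHomOver (𝓤.f i ≫ t) t := fun i => ⟨𝓤.f i, rfl⟩
  have : ∀ i, IsOpenImmersion (ψ i).1 := fun i => inferInstanceAs (IsOpenImmersion (𝓤.f i))
  let b : ∀ i, pullback c (𝓤.f i ≫ t) ⟶ pullback c t := fun i => baseChangeSnd c (ψ i)
  have : ∀ i, IsOpenImmersion (b i) := fun i => isOpenImmersion_baseChangeSnd c (ψ i)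
  have hcomm : ∀ i, rigSection c (𝓤.f i ≫ t) ε ≫ b i = 𝓤.f i ≫ rigSection c t ε :=
    fun i => rigSection_baseChangeSnd c ε (ψ i)
  have hb : ∀ i, (b i).opensRange = pullback.snd c t ⁻¹ᵁ (𝓤.f i).opensRange :=
    fun i => opensRange_baseChangeSnd c (ψ i)
  let D : ∀ i, RigOn (pullback.snd c t) (rigSection c t ε) (𝓤.f i).opensRange := fun i =>
    rigOnOfPush hσ (b i) (𝓤.f i) (rigSection c (𝓤.f i ≫ t) ε) (hcomm i) (hb i) (M i).L
      (M i).isInvertible (M i).rigidified.some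
  have key : ∀ i j, ∃ φ : LocHom (D i).N (D j).N
      (pullback.snd c t ⁻¹ᵁ ((𝓤.f i).opensRange ⊓ (𝓤.f j).opensRange)), φ.IsIso := by
    intro i j
    obtain ⟨e⟩ := h i j
    let ψp : SchemeHomOver (pullback.fst (𝓤.f i) (𝓤.f j) ≫ 𝓤.f i ≫ t) (𝓤.f i ≫ t) :=
      ⟨pullback.fst (𝓤.f i) (𝓤.f j), rfl⟩
    let ψq : SchemeHomOver (pullback.fst (𝓤.f i) (𝓤.f j) ≫ 𝓤.f i ≫ t) (𝓤.f j ≫ t) :=
      ⟨pullback.snd (𝓤.f i) (𝓤.f j),
        by rw [← Category.assoc, ← pullback.condition, Category.assoc]⟩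
    have : IsOpenImmersion ψp.1 :=
      inferInstanceAs (IsOpenImmersion (pullback.fst (𝓤.f i) (𝓤.f j)))
    have : IsOpenImmersion ψq.1 :=
      inferInstanceAs (IsOpenImmersion (pullback.snd (𝓤.f i) (𝓤.f j)))
    let p := baseChangeSnd c ψp
    let q := baseChangeSnd c ψq
    have : IsOpenImmersion p := isOpenImmersion_baseChangeSnd c ψp
    have : IsOpenImmersion q := isOpenImmersion_baseChangeSnd c ψq
    let k := p ≫ b i
    have : IsOpenImmersion (postComp (ψ i) ψp).1 :=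
      inferInstanceAs (IsOpenImmersion (pullback.fst (𝓤.f i) (𝓤.f j) ≫ 𝓤.f i))
    have hk1 : k = baseChangeSnd c (postComp (ψ i) ψp) := baseChangeSnd_comp c (ψ i) ψp
    have hk : q ≫ b j = k := by
      rw [hk1]
      refine (baseChangeSnd_comp c (ψ j) ψq).trans ?_
      congr 1
      exact Subtype.ext pullback.condition.symm
    have hkrange : k.opensRange =
        pullback.snd c t ⁻¹ᵁ ((𝓤.f i).opensRange ⊓ (𝓤.f j).opensRange) := by
      rw [opensRange_congr hk1, opensRange_baseChangeSnd]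
      congr 1
      ext x
      exact Set.ext_iff.mp (IsOpenImmersion.range_pullback_to_base_of_left (𝓤.f i) (𝓤.f j)) x
    let E : (Scheme.Modules.pullback k).obj (D i).N ≅ (Scheme.Modules.pullback k).obj (D j).N :=
      ((Scheme.Modules.pullbackComp p (b i)).app _).symm ≪≫
      (Scheme.Modules.pullback p).mapIso (pbPushIso (b i) (M i).L) ≪≫ e ≪≫
      (Scheme.Modules.pullback q).mapIso (pbPushIso (b j) (M j).L).symm ≪≫
      (Scheme.Modules.pullbackComp q (b j)).app _ ≪≫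
      (Scheme.Modules.pullbackCongr hk).app _
    have hle : pullback.snd c t ⁻¹ᵁ ((𝓤.f i).opensRange ⊓ (𝓤.f j).opensRange) ≤ k.opensRange :=
      le_of_eq hkrange.symm
    exact ⟨(LocHom.ofPullbackIso k E).restrict hle,
      (LocHom.isIso_ofPullbackIso k E).restrict hle⟩
  obtain ⟨E, hE⟩ := glue_abstract' hσ (hO t) (fun i => (𝓤.f i).opensRange)
    𝓤.iSup_opensRange D key
  refine ⟨⟨E.N, isInvertible_of_locInv (locInv_of_locInvOn_top E.gen),
    exists_rigidification E⟩, fun i => ?_⟩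
  obtain ⟨χ, hχ⟩ := hE i
  have hle : (b i).opensRange ≤ pullback.snd c t ⁻¹ᵁ (𝓤.f i).opensRange := le_of_eq (hb i)
  exact ⟨LocHom.toPullbackIso (b i) (χ.restrict hle) (hχ.restrict hle) ≪≫
    pbPushIso (b i) (M i).L⟩

end descent

end Fermat.Agent.S25.ZAR.H1891
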