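import Fermat.Agent.S25.ZAR.H1891.RigCore
import Fermat.Agent.S25.ZAR.H270.EvIso

/-!
# Zariski descent for rigidified line bundles on `C ×_R T` (helper1891)

Concrete layer of S25B package A5: `rig_sep` and `rig_glue` for the Prelude's
`RigidifiedLineBundle c ε t`, from the abstract core `RigCore.lean`, under the hypothesis
`hO` that `Γ(T, W) → Γ(C ×_R T, pr₂⁻¹W)` is surjective for all `T` and all opens `W`.
-/

set_option autoImplicit false

open CategoryTheory Limits AlgebraicGeometry TopologicalSpace Opposite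

universe u

namespace Fermat.Agent.S25.ZAR.H1891

open Fermat.Agent.S25.ZAR.H4770 AlgebraicGeometry.RelPicard NeronModelInfra

/-! ### Geometry of `baseChangeSnd` -/

section geom

variable {R : Type u} [CommRing R] {C T T' : Scheme.{u}} (c : C ⟶ Spec (CommRingCat.of R))
  {t : T ⟶ Spec (CommRingCat.of R)} {t' : T' ⟶ Spec (CommRingCat.of R)}

lemma baseChangeSnd_fst (ψ : SchemeHomOver t' t) :
    baseChangeSnd c ψ ≫ pullback.fst c t = pullback.fst c t' := by
  unfold baseChangeSnd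
  exact (pullback.lift_fst _ _ _).trans (Category.comp_id _)

lemma baseChangeSnd_snd (ψ : SchemeHomOver t' t) :
    baseChangeSnd c ψ ≫ pullback.snd c t = pullback.snd c t' ≫ ψ.1 := by
  unfold baseChangeSnd
  exact pullback.lift_snd _ _ _

lemma isPullback_baseChangeSnd (ψ : SchemeHomOver t' t) :
    IsPullback (baseChangeSnd c ψ) (pullback.snd c t') (pullback.snd c t) ψ.1 := by
  have hbig : IsPullback (baseChangeSnd c ψ ≫ pullback.fst c t) (pullback.snd c t') c
      (ψ.1 ≫ t) := by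
    rw [baseChangeSnd_fst, ψ.2]
    exact IsPullback.of_hasPullback c t'
  exact IsPullback.of_right hbig (baseChangeSnd_snd c ψ) (IsPullback.of_hasPullback c t)

instance isOpenImmersion_baseChangeSnd (ψ : SchemeHomOver t' t) [IsOpenImmersion ψ.1] :
    IsOpenImmersion (baseChangeSnd c ψ) :=
  MorphismProperty.of_isPullback (isPullback_baseChangeSnd c ψ).flip ‹_›

lemma opensRange_baseChangeSnd (ψ : SchemeHomOver t' t) [IsOpenImmersion ψ.1] :
    (baseChangeSnd c ψ).opensRange = (pullback.snd c t) ⁻¹ᵁ ψ.1.opensRange := by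
  ext x
  constructor
  · rintro ⟨p, rfl⟩
    refine ⟨(pullback.snd c t').base p, ?_⟩
    have := congrArg (fun g : pullback c t' ⟶ T => g.base p) (baseChangeSnd_snd c ψ)
    simpa using this.symm
  · rintro ⟨y, hy⟩
    obtain ⟨p, hp, -⟩ :=
      Scheme.exists_preimage_of_isPullback (isPullback_baseChangeSnd c ψ) x y hy.symm
    exact ⟨p, hp⟩

end geom

/-! ### Pushforward along an open immersion -/

section push

variable {X X' : Scheme.{u}} (b : X' ⟶ X) [IsOpenImmersion b]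

/-- `b^* b_* L ≅ L` for an open immersion `b`. -/
noncomputable def pbPushIso (L : X'.Modules) :
    (Scheme.Modules.pullback b).obj ((Scheme.Modules.pushforward b).obj L) ≅ L :=
  ((Scheme.Modules.restrictFunctorIsoPullback b).app _).symm ≪≫
    (Scheme.Modules.restrictFunctorAdjCounitIso b).app L

/-- The pushforward of an invertible sheaf along an open immersion has local generators on
the range. -/
lemma locInvOn_push (L : X'.Modules) (hL : Scheme.Modules.IsInvertible L) :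
    LocInvOn ((Scheme.Modules.pushforward b).obj L) b.opensRange := by
  rintro x ⟨y, rfl⟩
  obtain ⟨U', hyU', ⟨e⟩⟩ := hL.exists_trivialization y
  let N := (Scheme.Modules.pushforward b).obj L
  let m : U'.toScheme ⟶ X := U'.ι ≫ b
  let em : (Scheme.Modules.pullback m).obj (OO X) ≅ (Scheme.Modules.pullback m).obj N :=
    Scheme.Modules.pullbackUnitIso m ≪≫ e.symm ≪≫
      (Scheme.Modules.pullback U'.ι).mapIso (pbPushIso b L).symm ≪≫
      (Scheme.Modules.pullbackComp U'.ι b).app N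
  refine ⟨m.opensRange, ⟨⟨y, hyU'⟩, rfl⟩, ?_, _,
    isGen_of_locIso N (LocHom.ofPullbackIso m em) (LocHom.isIso_ofPullbackIso m em)⟩
  rintro z ⟨w, rfl⟩
  exact ⟨U'.ι.base w, rfl⟩

lemma bijective_app_of_le {T T' : Scheme.{u}} (ι : T' ⟶ T) [IsOpenImmersion ι] (W : T.Opens)
    (hW : W ≤ ι.opensRange) : Function.Bijective (ι.app W) := by
  have := Scheme.Hom.isIso_app ι W hW
  exact (ConcreteCategory.isIso_iff_bijective (ι.app W)).mp this

lemma isUnit_of_bijective_map {A B : CommRingCat.{u}} (g : A ⟶ B) (hg : Function.Bijective g)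
    (a : A) (h : IsUnit (g a)) : IsUnit a := by
  obtain ⟨w, hw⟩ := h.exists_right_inv
  obtain ⟨w', rfl⟩ := hg.2 w
  refine IsUnit.of_mul_eq_one w' (hg.1 ?_)
  rw [map_mul, hw, map_one]

end push

/-! ### Rigidified local line bundles from sheaves -/

section rigOn

variable {X T : Scheme.{u}}

lemma RigOn.ev_zero {f : X ⟶ T} {σ : T ⟶ X} {W : T.Opens} (D : RigOn f σ W) (V : X.Opens)
    (h : V ≤ f ⁻¹ᵁ W) : D.ev V h 0 = 0 := by
  have := D.ev_add V h 0 0
  simpa using this

/-- A rigidified invertible sheaf on `X` as a `RigOn` over the whole base. -/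
noncomputable def rigOnOfModule (f : X ⟶ T) (σ : T ⟶ X) (L : X.Modules)
    (hL : Scheme.Modules.IsInvertible L) (ρ : (Scheme.Modules.pullback σ).obj L ≅ OO T) :
    RigOn f σ ⊤ where
  N := L
  gen := locInvOn_of_locInv (locInv_of_isInvertible hL) _
  ev V _ := ev σ L ρ.hom V
  ev_add V _ := ev_add σ L ρ.hom V
  ev_smul V _ := ev_smul σ L ρ.hom V
  ev_res _ _ _ h' := ev_res σ L ρ.hom h'
  ev_unit _ _ _ hs := isUnit_ev_of_isGen σ ρ.hom hs

section pushRig

variable {X' T' : Scheme.{u}} {f : X ⟶ T} {σ : T ⟶ X} (hσ : σ ≫ f = 𝟙 T)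
  (b : X' ⟶ X) [IsOpenImmersion b] (ι : T' ⟶ T) [IsOpenImmersion ι]
  (σ' : T' ⟶ X') (hcomm : σ' ≫ b = ι ≫ σ) (hb : b.opensRange = f ⁻¹ᵁ ι.opensRange)
  (L : X'.Modules) (hL : Scheme.Modules.IsInvertible L)
  (ρ : (Scheme.Modules.pullback σ').obj L ≅ OO T')

/-- The rigidification of `b_* L` along `ι ≫ σ`. -/
noncomputable def pushRho :
    (Scheme.Modules.pullback (ι ≫ σ)).obj ((Scheme.Modules.pushforward b).obj L) ≅ OO T' :=
  (Scheme.Modules.pullbackCongr hcomm.symm).app _ ≪≫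
    ((Scheme.Modules.pullbackComp σ' b).app _).symm ≪≫
    (Scheme.Modules.pullback σ').mapIso (pbPushIso b L) ≪≫ ρ

/-- Evaluation of sections of `b_* L` over opens of `f⁻¹(range ι)`, with values in `Γ(T, -)`. -/
noncomputable def pushEv (V : X.Opens) (hV : V ≤ f ⁻¹ᵁ ι.opensRange)
    (s : Γ((Scheme.Modules.pushforward b).obj L, V)) : Γ(T, σ ⁻¹ᵁ V) :=
  (Equiv.ofBijective _ (bijective_app_of_le ι (σ ⁻¹ᵁ V) (preimage_le hσ hV))).symm
    (ev (ι ≫ σ) _ (pushRho b ι σ' hcomm L ρ).hom V s)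

lemma app_pushEv (V : X.Opens) (hV : V ≤ f ⁻¹ᵁ ι.opensRange)
    (s : Γ((Scheme.Modules.pushforward b).obj L, V)) :
    ι.app (σ ⁻¹ᵁ V) (pushEv hσ b ι σ' hcomm L ρ V hV s) =
      ev (ι ≫ σ) _ (pushRho b ι σ' hcomm L ρ).hom V s :=
  Equiv.ofBijective_apply_symm_apply _ _ _

/-- The pushforward of a rigidified invertible sheaf along an open immersion `b : X' ⟶ X` lying
over an open immersion `ι : T' ⟶ T`, as a rigidified local line bundle over the range of `ι`. -/
noncomputable def rigOnOfPush : RigOn f σ ι.opensRange where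
  N := (Scheme.Modules.pushforward b).obj L
  gen := by
    rw [← hb]
    exact locInvOn_push b L hL
  ev V hV s := pushEv hσ b ι σ' hcomm L ρ V hV s
  ev_add V hV s t := by
    apply (bijective_app_of_le ι (σ ⁻¹ᵁ V) (preimage_le hσ hV)).1
    rw [map_add, app_pushEv, app_pushEv, app_pushEv, ev_add]
    rfl
  ev_smul V hV r s := by
    apply (bijective_app_of_le ι (σ ⁻¹ᵁ V) (preimage_le hσ hV)).1
    rw [map_mul, app_pushEv, app_pushEv, ev_smul]
    rfl
  ev_res V V' hV h' s := by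
    apply (bijective_app_of_le ι (σ ⁻¹ᵁ V') (preimage_le hσ (h'.trans hV))).1
    rw [app_pushEv, app_resO, app_pushEv, ev_res]
    rfl
  ev_unit V hV s hs := by
    apply isUnit_of_bijective_map _ (bijective_app_of_le ι (σ ⁻¹ᵁ V) (preimage_le hσ hV))
    rw [app_pushEv]
    exact isUnit_ev_of_isGen (ι ≫ σ) (pushRho b ι σ' hcomm L ρ).hom hs

@[simp] lemma rigOnOfPush_N :
    (rigOnOfPush hσ b ι σ' hcomm hb L hL ρ).N = (Scheme.Modules.pushforward b).obj L := rfl

end pushRig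

/-- A rigidified line bundle in sections form over the whole base has a rigidification in the
sense of the Prelude. -/
theorem exists_rigidification {f : X ⟶ T} {σ : T ⟶ X} (D : RigOn f σ ⊤) :
    Nonempty ((Scheme.Modules.pullback σ).obj D.N ≅ SheafOfModules.unit T.ringCatSheaf) := by
  have htop : ∀ V : X.Opens, V ≤ f ⁻¹ᵁ ⊤ := fun _ _ _ => trivial
  let e : D.N ⟶ (Scheme.Modules.pushforward σ).obj (H270.𝒪m T) :=
    H270.homToPushforward σ
      (fun O =>
        { toFun := fun s => (H270.unitSec (σ ⁻¹ᵁ O)).symm (D.ev O (htop O) s)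
          map_zero' := by rw [D.ev_zero]; rfl
          map_add' := fun s s' => by rw [D.ev_add]; rfl })
      (fun O O' h s => congrArg (H270.unitSec (σ ⁻¹ᵁ O')).symm (D.ev_res O O' (htop O) h s))
      (fun O r s => congrArg (H270.unitSec (σ ⁻¹ᵁ O)).symm (D.ev_smul O (htop O) r s))
  have hiso : IsIso (H270.rhoOf σ e) := by
    refine H270.isIso_of_isUnit_ev σ e (fun x => ?_)
    obtain ⟨V, hxV, -, s, hs⟩ := D.gen (σ.base x) trivial
    exact ⟨V, s, hxV, hs, D.ev_unit V (htop V) s hs⟩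
  exact ⟨asIso (H270.rhoOf σ e)⟩

end rigOn

/-! ### Zariski descent for `RigidifiedLineBundle` -/

section descent

variable {R : Type u} [CommRing R] {C : Scheme.{u}} {c : C ⟶ Spec (CommRingCat.of R)}
  {ε : SchemeHomOver (𝟙 (Spec (CommRingCat.of R))) c}

/-- The hypothesis `pr₂_* 𝒪 = 𝒪` universally (surjectivity form): for every `T` over `R` and
every open `W` of `T`, the map `Γ(T, W) → Γ(C ×_R T, pr₂⁻¹ W)` is surjective. -/
def HasGammaSurj (c : C ⟶ Spec (CommRingCat.of R)) : Prop :=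
  ∀ {T : Scheme.{u}} (t : T ⟶ Spec (CommRingCat.of R)) (W : T.Opens)
    (a : Γ(pullback c t, pullback.snd c t ⁻¹ᵁ W)), ∃ b : Γ(T, W), (pullback.snd c t).app W b = a

lemma rigSection_snd {T : Scheme.{u}} (t : T ⟶ Spec (CommRingCat.of R)) :
    rigSection c t ε ≫ pullback.snd c t = 𝟙 T :=
  pullback.lift_snd _ _ _

lemma opensRange_congr {X Y : Scheme.{u}} {g g' : X ⟶ Y} [IsOpenImmersion g]
    [IsOpenImmersion g'] (h : g = g') : g.opensRange = g'.opensRange := by
  subst h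
  rfl

/-- **(sep)** Two rigidified line bundles on `C ×_R T` which are isomorphic locally on `T` are
isomorphic. -/
theorem rig_sep (hO : HasGammaSurj c) {T : Scheme.{u}} (t : T ⟶ Spec (CommRingCat.of R))
    (𝓤 : Scheme.OpenCover.{u} T) (M M' : RigidifiedLineBundle c ε t)
    (h : ∀ i, Nonempty
      ((M.pullbackAlong (⟨𝓤.f i, rfl⟩ : SchemeHomOver (𝓤.f i ≫ t) t)).L ≅
        (M'.pullbackAlong (⟨𝓤.f i, rfl⟩ : SchemeHomOver (𝓤.f i ≫ t) t)).L)) :
    Nonempty (M.L ≅ M'.L) := by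
  have hσ : rigSection c t ε ≫ pullback.snd c t = 𝟙 T := rigSection_snd t
  let D := rigOnOfModule (pullback.snd c t) (rigSection c t ε) M.L M.isInvertible
    M.rigidified.some
  let D' := rigOnOfModule (pullback.snd c t) (rigSection c t ε) M'.L M'.isInvertible
    M'.rigidified.some
  have key : ∀ i, ∃ φ : LocHom D.N D'.N (pullback.snd c t ⁻¹ᵁ (𝓤.f i).opensRange),
      φ.IsIso := by
    intro i
    let ψ : SchemeHomOver (𝓤.f i ≫ t) t := ⟨𝓤.f i, rfl⟩
    have : IsOpenImmersion ψ.1 := inferInstanceAs (IsOpenImmersion (𝓤.f i))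
    obtain ⟨e⟩ := h i
    have hle : pullback.snd c t ⁻¹ᵁ (𝓤.f i).opensRange ≤ (baseChangeSnd c ψ).opensRange :=
      le_of_eq (opensRange_baseChangeSnd c ψ).symm
    exact ⟨(LocHom.ofPullbackIso (baseChangeSnd c ψ) e).restrict hle,
      (LocHom.isIso_ofPullbackIso (baseChangeSnd c ψ) e).restrict hle⟩
  obtain ⟨φ, hφ⟩ := sep_abstract hσ (hO t) D D' (fun i => (𝓤.f i).opensRange)
    𝓤.iSup_opensRange key
  exact ⟨φ.toIso hφ⟩

/-- **(glue)** Rigidified line bundles on the `C ×_R U_i`, isomorphic on the overlaps, glue to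
a rigidified line bundle on `C ×_R T`. -/
theorem rig_glue (hO : HasGammaSurj c) {T : Scheme.{u}} (t : T ⟶ Spec (CommRingCat.of R))
    (𝓤 : Scheme.OpenCover.{u} T) (M : ∀ i, RigidifiedLineBundle c ε (𝓤.f i ≫ t))
    (h : ∀ i j, Nonempty
      (((M i).pullbackAlong (⟨pullback.fst (𝓤.f i) (𝓤.f j), rfl⟩ :
          SchemeHomOver (pullback.fst (𝓤.f i) (𝓤.f j) ≫ 𝓤.f i ≫ t) (𝓤.f i ≫ t))).L ≅
        ((M j).pullbackAlong (⟨pullback.snd (𝓤.f i) (𝓤.f j),
            by rw [← Category.assoc, ← pullback.condition, Category.assoc]⟩ :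
          SchemeHomOver (pullback.fst (𝓤.f i) (𝓤.f j) ≫ 𝓤.f i ≫ t) (𝓤.f j ≫ t))).L)) :
    ∃ N : RigidifiedLineBundle c ε t, ∀ i, Nonempty
      ((N.pullbackAlong (⟨𝓤.f i, rfl⟩ : SchemeHomOver (𝓤.f i ≫ t) t)).L ≅ (M i).L) := by
  have hσ : rigSection c t ε ≫ pullback.snd c t = 𝟙 T := rigSection_snd t
  let ψ : ∀ i, SchemeHomOver (𝓤.f i ≫ t) t := fun i => ⟨𝓤.f i, rfl⟩
  have : ∀ i, IsOpenImmersion (ψ i).1 := fun i => inferInstanceAs (IsOpenImmersion (𝓤.f i))
  let b : ∀ i, pullback c (𝓤.f i ≫ t) ⟶ pullback c t := fun i => baseChangeSnd c (ψ i)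
  have : ∀ i, IsOpenImmersion (b i) := fun i => isOpenImmersion_baseChangeSnd c (ψ i)
  have hcomm : ∀ i, rigSection c (𝓤.f i ≫ t) ε ≫ b i = 𝓤.f i ≫ rigSection c t ε :=
    fun i => rigSection_baseChangeSnd c ε (ψ i)
  have hb : ∀ i, (b i).opensRange = pullback.snd c t ⁻¹ᵁ (𝓤.f i).opensRange :=
    fun i => opensRange_baseChangeSnd c (ψ i)
  let D : ∀ i, RigOn (pullback.snd c t) (rigSection c t ε) (𝓤.f i).opensRange := fun i =>
    rigOnOfPush hσ (b i) (𝓤.f i) (rigSection c (𝓤.f i ≫ t) ε) (hcomm i) (hb i) (M i).L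
      (M i).isInvertible (M i).rigidified.some
  have key : ∀ i j, ∃ φ : LocHom (D i).N (D j).N
      (pullback.snd c t ⁻¹ᵁ ((𝓤.f i).opensRange ⊓ (𝓤.f j).opensRange)), φ.IsIso := by
    intro i j
    obtain ⟨e⟩ := h i j
    let ψp : SchemeHomOver (pullback.fst (𝓤.f i) (𝓤.f j) ≫ 𝓤.f i ≫ t) (𝓤.f i ≫ t) :=
      ⟨pullback.fst (𝓤.f i) (𝓤.f j), rfl⟩
    let ψq : SchemeHomOver (pullback.fst (𝓤.f i) (𝓤.f j) ≫ 𝓤.f i ≫ t) (𝓤.f j ≫ t) :=
      ⟨pullback.snd (𝓤.f i) (𝓤.f j),
        by rw [← Category.assoc, ← pullback.condition, Category.assoc]⟩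
    have : IsOpenImmersion ψp.1 :=
      inferInstanceAs (IsOpenImmersion (pullback.fst (𝓤.f i) (𝓤.f j)))
    have : IsOpenImmersion ψq.1 :=
      inferInstanceAs (IsOpenImmersion (pullback.snd (𝓤.f i) (𝓤.f j)))
    let p := baseChangeSnd c ψp
    let q := baseChangeSnd c ψq
    have : IsOpenImmersion p := isOpenImmersion_baseChangeSnd c ψp
    have : IsOpenImmersion q := isOpenImmersion_baseChangeSnd c ψq
    let k := p ≫ b i
    have : IsOpenImmersion (postComp (ψ i) ψp).1 :=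
      inferInstanceAs (IsOpenImmersion (pullback.fst (𝓤.f i) (𝓤.f j) ≫ 𝓤.f i))
    have hk1 : k = baseChangeSnd c (postComp (ψ i) ψp) := baseChangeSnd_comp c (ψ i) ψp
    have hk : q ≫ b j = k := by
      rw [hk1]
      refine (baseChangeSnd_comp c (ψ j) ψq).trans ?_
      congr 1
      exact Subtype.ext pullback.condition.symm
    have hkrange : k.opensRange =
        pullback.snd c t ⁻¹ᵁ ((𝓤.f i).opensRange ⊓ (𝓤.f j).opensRange) := by
      rw [opensRange_congr hk1, opensRange_baseChangeSnd]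
      congr 1
      ext x
      exact Set.ext_iff.mp (IsOpenImmersion.range_pullback_to_base_of_left (𝓤.f i) (𝓤.f j)) x
    let E : (Scheme.Modules.pullback k).obj (D i).N ≅ (Scheme.Modules.pullback k).obj (D j).N :=
      ((Scheme.Modules.pullbackComp p (b i)).app _).symm ≪≫
      (Scheme.Modules.pullback p).mapIso (pbPushIso (b i) (M i).L) ≪≫ e ≪≫
      (Scheme.Modules.pullback q).mapIso (pbPushIso (b j) (M j).L).symm ≪≫
      (Scheme.Modules.pullbackComp q (b j)).app _ ≪≫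
      (Scheme.Modules.pullbackCongr hk).app _
    have hle : pullback.snd c t ⁻¹ᵁ ((𝓤.f i).opensRange ⊓ (𝓤.f j).opensRange) ≤ k.opensRange :=
      le_of_eq hkrange.symm
    exact ⟨(LocHom.ofPullbackIso k E).restrict hle,
      (LocHom.isIso_ofPullbackIso k E).restrict hle⟩
  obtain ⟨E, hE⟩ := glue_abstract hσ (hO t) (fun i => (𝓤.f i).opensRange)
    𝓤.iSup_opensRange D key
  refine ⟨⟨E.N, isInvertible_of_locInv (locInv_of_locInvOn_top E.gen),
    exists_rigidification E⟩, fun i => ?_⟩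
  obtain ⟨χ, hχ⟩ := hE i
  have hle : (b i).opensRange ≤ pullback.snd c t ⁻¹ᵁ (𝓤.f i).opensRange := le_of_eq (hb i)
  exact ⟨LocHom.toPullbackIso (b i) (χ.restrict hle) (hχ.restrict hle) ≪≫
    pbPushIso (b i) (M i).L⟩

end descent

end Fermat.Agent.S25.ZAR.H1891
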