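import Fermat.Agent.S25.ZAR.H4770.Ev
import Fermat.Agent.S25.ZAR.H79.SecGlue

/-!
# Rigidified line bundles in sections form: normalisation, separation, gluing (helper1891)

Abstract core of S25B package A5 (`RigZariskiDescent`).  Setting: a morphism `f : X ⟶ T` with a
section `σ : T ⟶ X` such that `Γ(T, W) → Γ(X, f⁻¹W)` is surjective for every open `W` of `T`.
A *rigidified local line bundle over `W`* (`RigOn f σ W`) is a sheaf of modules `N` on `X` which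
has local generators on `f⁻¹W`, together with an "evaluation" `ev : Γ(N, V) → Γ(T, σ⁻¹V)`
(`V ≤ f⁻¹W`) which is additive, semilinear, compatible with restriction and sends generators to
units.  Isomorphisms compatible with the evaluations ("normalised") are unique, and every
isomorphism can be normalised.  Hence local isomorphisms glue (`sep_abstract`) and local objects
glue (`glue_abstract`).

Built on helper4770's `LocHom` library and helper79's `SecGlue`.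
-/

set_option autoImplicit false

open CategoryTheory Limits AlgebraicGeometry TopologicalSpace Opposite

universe u

namespace Fermat.Agent.S25.ZAR.H1891

open Fermat.Agent.S25.ZAR.H4770

variable {X T : Scheme.{u}}

/-! ### Generalities -/

/-- A section of the structure sheaf which is locally a unit is a unit. -/
lemma isUnit_of_locally {V : T.Opens} (r : Γ(T, V)) {ι : Type*} (Wc : ι → T.Opens)
    (hW : ∀ i, Wc i ≤ V) (hcov : V ≤ ⨆ i, Wc i) (h : ∀ i, IsUnit (resO (hW i) r)) :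
    IsUnit r := by
  have hex : ∀ i, ∃ v : Γ(T, Wc i), resO (hW i) r * v = 1 := fun i => (h i).exists_right_inv
  choose v hv using hex
  have hcompat : ∀ i j, resO (inf_le_left : Wc i ⊓ Wc j ≤ Wc i) (v i) =
      resO (inf_le_right : Wc i ⊓ Wc j ≤ Wc j) (v j) := by
    intro i j
    have h1 : resO (inf_le_left.trans (hW i) : Wc i ⊓ Wc j ≤ V) r *
        resO (inf_le_left : Wc i ⊓ Wc j ≤ Wc i) (v i) = 1 := by
      have := congrArg (resO (inf_le_left : Wc i ⊓ Wc j ≤ Wc i)) (hv i)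
      rwa [resO_mul, resO_resO, resO_one] at this
    have h2 : resO (inf_le_left.trans (hW i) : Wc i ⊓ Wc j ≤ V) r *
        resO (inf_le_right : Wc i ⊓ Wc j ≤ Wc j) (v j) = 1 := by
      have := congrArg (resO (inf_le_right : Wc i ⊓ Wc j ≤ Wc j)) (hv j)
      rwa [resO_mul, resO_resO, resO_one] at this
    calc resO (inf_le_left : Wc i ⊓ Wc j ≤ Wc i) (v i)
        = resO (inf_le_left : Wc i ⊓ Wc j ≤ Wc i) (v i) *
          (resO (inf_le_left.trans (hW i) : Wc i ⊓ Wc j ≤ V) r *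
            resO (inf_le_right : Wc i ⊓ Wc j ≤ Wc j) (v j)) := by rw [h2, mul_one]
      _ = (resO (inf_le_left.trans (hW i) : Wc i ⊓ Wc j ≤ V) r *
            resO (inf_le_left : Wc i ⊓ Wc j ≤ Wc i) (v i)) *
          resO (inf_le_right : Wc i ⊓ Wc j ≤ Wc j) (v j) := by ring
      _ = resO (inf_le_right : Wc i ⊓ Wc j ≤ Wc j) (v j) := by rw [h1, one_mul]
  obtain ⟨w, hw, -⟩ := secO_glue V Wc hW hcov v hcompat
  refine IsUnit.of_mul_eq_one w ?_
  refine secO_ext V Wc hW hcov _ _ (fun i => ?_)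
  rw [resO_mul, hw, hv, resO_one]

section retraction

variable {f : X ⟶ T} {σ : T ⟶ X}

lemma sec_apply (hσ : σ ≫ f = 𝟙 T) (x : T) : f.base (σ.base x) = x := by
  have := congrArg (fun g : T ⟶ T => g.base x) hσ
  simpa using this

lemma preimage_le (hσ : σ ≫ f = 𝟙 T) {W : T.Opens} {V : X.Opens} (h : V ≤ f ⁻¹ᵁ W) :
    σ ⁻¹ᵁ V ≤ W := by
  intro y hy
  have h1 : σ.base y ∈ f ⁻¹ᵁ W := h hy
  have h2 : f.base (σ.base y) ∈ W := h1
  rwa [sec_apply hσ] at h2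

lemma le_preimage_preimage (hσ : σ ≫ f = 𝟙 T) (W : T.Opens) : W ≤ σ ⁻¹ᵁ f ⁻¹ᵁ W := by
  intro y hy
  show f.base (σ.base y) ∈ W
  rwa [sec_apply hσ]

/-- `σ^♯ ∘ f^♯ = id`, in restricted form. -/
lemma app_app_section (hσ : σ ≫ f = 𝟙 T) {W : T.Opens} {V : X.Opens} (h : V ≤ f ⁻¹ᵁ W)
    (b : Γ(T, W)) :
    σ.app V (resO h (f.app W b)) = resO (preimage_le hσ h) b := by
  rw [app_resO]
  have h1 : σ.app (f ⁻¹ᵁ W) (f.app W b) = resO (preimage_le hσ (le_refl _)) b := by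
    have h3 := Scheme.Hom.congr_app hσ W
    exact congr($h3 b)
  rw [h1, resO_resO]

end retraction

/-! ### Endomorphisms of a sheaf with local generators on an open -/

/-- `L` has local generators on `U`. -/
def LocInvOn (L : X.Modules) (U : X.Opens) : Prop :=
  ∀ x : X, x ∈ U → ∃ V : X.Opens, x ∈ V ∧ V ≤ U ∧ ∃ s : Γ(L, V), IsGen L V s

lemma LocInvOn.mono {L : X.Modules} {U U' : X.Opens} (hL : LocInvOn L U) (h : U' ≤ U) :
    LocInvOn L U' := by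
  intro x hx
  obtain ⟨V, hxV, -, s, hs⟩ := hL x (h hx)
  exact ⟨V ⊓ U', ⟨hxV, hx⟩, inf_le_right, res L inf_le_left s, hs.restrict _⟩

lemma locInvOn_of_locInv {L : X.Modules} (hL : LocInv L) (U : X.Opens) : LocInvOn L U := by
  intro x hx
  obtain ⟨V, hxV, s, hs⟩ := hL x
  exact ⟨V ⊓ U, ⟨hxV, hx⟩, inf_le_right, res L inf_le_left s, hs.restrict _⟩

lemma locInv_of_locInvOn_top {L : X.Modules} (hL : LocInvOn L ⊤) : LocInv L := by
  intro x
  obtain ⟨V, hxV, -, s, hs⟩ := hL x trivial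
  exact ⟨V, hxV, s, hs⟩

/-- Endomorphisms of a sheaf with local generators on `U` are multiplications by sections of
`𝒪` over `U` (local version of helper4770's `exists_unique_smul_of_end`). -/
theorem exists_smul_of_end_on {L : X.Modules} {U : X.Opens} (hL : LocInvOn L U)
    (ψ : LocHom L L U) :
    ∃ u : Γ(X, U), ∀ (V : X.Opens) (h : V ≤ U) (t : Γ(L, V)), ψ.app V h t = resO h u • t := by
  have hL' : ∀ x : U, ∃ V : X.Opens, x.1 ∈ V ∧ V ≤ U ∧ ∃ s : Γ(L, V), IsGen L V s :=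
    fun x => hL x.1 x.2
  choose W hxW hW g hg using hL'
  have hcov : U ≤ ⨆ x, W x := by
    intro y hy
    exact Opens.mem_iSup.mpr ⟨⟨y, hy⟩, hxW ⟨y, hy⟩⟩
  have hux : ∀ x : U, ∃ ux : Γ(X, W x), ψ.app (W x) (hW x) (g x) = ux • g x := by
    intro x
    obtain ⟨r, hr⟩ := (hg x (W x) le_rfl).2 (ψ.app (W x) (hW x) (g x))
    exact ⟨r, by simpa using hr.symm⟩
  choose ux hux using hux
  have claimA : ∀ (x : U) (V : X.Opens) (hV : V ≤ W x) (t : Γ(L, V)),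
      ψ.app V (hV.trans (hW x)) t = resO hV (ux x) • t := by
    intro x V hV t
    obtain ⟨r, rfl⟩ := (hg x V hV).2 t
    show ψ.app V _ (r • res L hV (g x)) = resO hV (ux x) • (r • res L hV (g x))
    rw [ψ.map_smul, ψ.map_res (W x) V (hW x) hV, hux, res_smul, smul_smul, smul_smul, mul_comm]
  have hcompat : ∀ x y : U, resO (inf_le_left : W x ⊓ W y ≤ W x) (ux x) =
      resO (inf_le_right : W x ⊓ W y ≤ W y) (ux y) := by
    intro x y
    have h1 := claimA x (W x ⊓ W y) inf_le_left (res L inf_le_left (g x))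
    have h2 := claimA y (W x ⊓ W y) inf_le_right (res L inf_le_left (g x))
    exact (hg x (W x ⊓ W y) inf_le_left).1 (h1.symm.trans h2)
  obtain ⟨u, hu, -⟩ := secO_glue U W hW hcov ux hcompat
  refine ⟨u, ?_⟩
  intro V h t
  refine sec_ext L V (fun x => V ⊓ W x) (fun _ => inf_le_left)
    (LocHom.le_iSup_inf W h hcov) _ _ ?_
  intro x
  rw [← ψ.map_res V (V ⊓ W x) h inf_le_left, claimA x (V ⊓ W x) inf_le_right, res_smul,
    ← hu x, resO_resO, resO_resO]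

/-- Two local isomorphisms between sheaves with local generators differ by a section of `𝒪`. -/
theorem exists_smul_of_isIso_on {L L' : X.Modules} {U : X.Opens} (hL : LocInvOn L U)
    (φ φ' : LocHom L L' U) (hφ : φ.IsIso) :
    ∃ u : Γ(X, U), ∀ (V : X.Opens) (h : V ≤ U) (t : Γ(L, V)),
      φ'.app V h t = resO h u • φ.app V h t := by
  obtain ⟨u, hu⟩ := exists_smul_of_end_on hL (φ'.comp (φ.inv hφ))
  refine ⟨u, fun V h t => ?_⟩
  have h1 := hu V h t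
  rw [LocHom.comp_app] at h1
  have h2 := congrArg (φ.app V h) h1
  rw [LocHom.app_inv_app, φ.map_smul] at h2
  exact h2

/-- A local isomorphism maps generators to generators. -/
lemma isGen_map {M N : X.Modules} {U : X.Opens} (φ : LocHom M N U) (hφ : φ.IsIso)
    {V : X.Opens} (hV : V ≤ U) {s : Γ(M, V)} (hs : IsGen M V s) :
    IsGen N V (φ.app V hV s) := by
  intro V' h
  have key : (fun r : Γ(X, V') => r • res N h (φ.app V hV s)) =
      (φ.app V' (h.trans hV)) ∘ (fun r : Γ(X, V') => r • res M h s) := by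
    funext r
    simp only [Function.comp_apply]
    rw [φ.map_smul, φ.map_res V V' hV h]
  rw [key]
  exact (hφ V' (h.trans hV)).comp (hs V' h)

/-- Multiplying a local isomorphism by a unit gives a local isomorphism. -/
lemma isIso_smul_of_isUnit {M N : X.Modules} {U : X.Opens} (c : Γ(X, U)) (hc : IsUnit c)
    (φ : LocHom M N U) (hφ : φ.IsIso) : (LocHom.smul c φ).IsIso := by
  intro V h
  obtain ⟨d, hd⟩ := hc.exists_left_inv
  have hd' : resO h d * resO h c = 1 := by rw [← resO_mul, hd, resO_one]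
  have hd'' : resO h c * resO h d = 1 := by rw [mul_comm, hd']
  have hb : Function.Bijective (fun t : Γ(N, V) => resO h c • t) := by
    refine Function.bijective_iff_has_inverse.mpr ⟨fun t => resO h d • t, ?_, ?_⟩
    · intro t
      show resO h d • (resO h c • t) = t
      rw [smul_smul, hd', one_smul]
    · intro t
      show resO h c • (resO h d • t) = t
      rw [smul_smul, hd'', one_smul]
  exact hb.comp (hφ V h)

/-! ### Rigidified local line bundles -/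

/-- A rigidified local line bundle over the open `W` of `T`, in sections form. -/
structure RigOn (f : X ⟶ T) (σ : T ⟶ X) (W : T.Opens) where
  /-- the underlying sheaf of modules on `X` (only its restriction to `f⁻¹W` matters) -/
  N : X.Modules
  gen : LocInvOn N (f ⁻¹ᵁ W)
  /-- evaluation along `σ` -/
  ev : ∀ V : X.Opens, V ≤ f ⁻¹ᵁ W → Γ(N, V) → Γ(T, σ ⁻¹ᵁ V)
  ev_add : ∀ (V : X.Opens) (h : V ≤ f ⁻¹ᵁ W) (s t : Γ(N, V)),
    ev V h (s + t) = ev V h s + ev V h t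
  ev_smul : ∀ (V : X.Opens) (h : V ≤ f ⁻¹ᵁ W) (r : Γ(X, V)) (s : Γ(N, V)),
    ev V h (r • s) = σ.app V r * ev V h s
  ev_res : ∀ (V V' : X.Opens) (h : V ≤ f ⁻¹ᵁ W) (h' : V' ≤ V) (s : Γ(N, V)),
    ev V' (h'.trans h) (res N h' s) = resO (σ.preimage_mono h') (ev V h s)
  ev_unit : ∀ (V : X.Opens) (h : V ≤ f ⁻¹ᵁ W) (s : Γ(N, V)), IsGen N V s → IsUnit (ev V h s)

namespace RigOn

variable {f : X ⟶ T} {σ : T ⟶ X}

/-- Restriction of a rigidified local line bundle to a smaller open of the base. -/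
def restrict {W : T.Opens} (D : RigOn f σ W) {W' : T.Opens} (h : W' ≤ W) : RigOn f σ W' where
  N := D.N
  gen := D.gen.mono (f.preimage_mono h)
  ev V hV := D.ev V (hV.trans (f.preimage_mono h))
  ev_add V _ := D.ev_add V _
  ev_smul V _ := D.ev_smul V _
  ev_res V V' _ h' := D.ev_res V V' _ h'
  ev_unit V _ := D.ev_unit V _

@[simp] lemma restrict_N {W : T.Opens} (D : RigOn f σ W) {W' : T.Opens} (h : W' ≤ W) :
    (D.restrict h).N = D.N := rfl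

end RigOn

section norm

variable {f : X ⟶ T} {σ : T ⟶ X} {W : T.Opens}

/-- A local morphism over `f⁻¹W` is normalised if it is compatible with the evaluations. -/
def IsNorm (D D' : RigOn f σ W) (φ : LocHom D.N D'.N (f ⁻¹ᵁ W)) : Prop :=
  ∀ (V : X.Opens) (h : V ≤ f ⁻¹ᵁ W) (s : Γ(D.N, V)), D'.ev V h (φ.app V h s) = D.ev V h s

lemma IsNorm.restrict {D D' : RigOn f σ W} {φ : LocHom D.N D'.N (f ⁻¹ᵁ W)}
    (hφ : IsNorm D D' φ) {W' : T.Opens} (h : W' ≤ W) :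
    IsNorm (D.restrict h) (D'.restrict h) (φ.restrict (f.preimage_mono h)) :=
  fun V hV s => hφ V (hV.trans (f.preimage_mono h)) s

lemma isNorm_id (D : RigOn f σ W) : IsNorm D D (LocHom.id D.N (f ⁻¹ᵁ W)) :=
  fun _ _ _ => rfl

lemma IsNorm.comp {D D' D'' : RigOn f σ W} {φ : LocHom D.N D'.N (f ⁻¹ᵁ W)}
    {ψ : LocHom D'.N D''.N (f ⁻¹ᵁ W)} (hφ : IsNorm D D' φ) (hψ : IsNorm D' D'' ψ) :
    IsNorm D D'' (φ.comp ψ) := by
  intro V h s
  rw [LocHom.comp_app, hψ, hφ]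

/-- **Uniqueness of normalised isomorphisms.** -/
theorem norm_unique (hσ : σ ≫ f = 𝟙 T)
    (hO : ∀ (W : T.Opens) (a : Γ(X, f ⁻¹ᵁ W)), ∃ b : Γ(T, W), f.app W b = a)
    (D D' : RigOn f σ W) (φ ψ : LocHom D.N D'.N (f ⁻¹ᵁ W)) (hφ : φ.IsIso)
    (hnφ : IsNorm D D' φ) (hnψ : IsNorm D D' ψ) : φ = ψ := by
  obtain ⟨u, hu⟩ := exists_smul_of_isIso_on D.gen φ ψ hφ
  obtain ⟨b, rfl⟩ := hO W u
  have hgen : ∀ x : W, ∃ V : X.Opens, σ.base x.1 ∈ V ∧ V ≤ f ⁻¹ᵁ W ∧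
      ∃ s : Γ(D.N, V), IsGen D.N V s := fun x => D.gen _ (le_preimage_preimage hσ W x.2)
  choose V hxV hV s hs using hgen
  have hb : b = 1 := by
    refine secO_ext W (fun x : W => σ ⁻¹ᵁ (V x)) (fun x => preimage_le hσ (hV x)) ?_ _ _ ?_
    · intro y hy
      exact Opens.mem_iSup.mpr ⟨⟨y, hy⟩, hxV ⟨y, hy⟩⟩
    · intro x
      have h1 := hnψ (V x) (hV x) (s x)
      rw [hu, D'.ev_smul, hnφ, app_app_section hσ] at h1
      have h2 : IsUnit (D.ev (V x) (hV x) (s x)) := D.ev_unit _ _ _ (hs x)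
      rw [resO_one]
      exact h2.mul_left_injective (h1.trans (one_mul _).symm)
  subst hb
  ext V' h t
  rw [hu, map_one, resO_one, one_smul]

/-- Every local isomorphism over `f⁻¹W` becomes compatible with the evaluations after
multiplication by a unit of `Γ(T, W)`. -/
theorem exists_unit_factor (hσ : σ ≫ f = 𝟙 T) (D D' : RigOn f σ W)
    (φ : LocHom D.N D'.N (f ⁻¹ᵁ W)) (hφ : φ.IsIso) :
    ∃ u : Γ(T, W), IsUnit u ∧ ∀ (V : X.Opens) (hV : V ≤ f ⁻¹ᵁ W) (t : Γ(D.N, V)),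
      D'.ev V hV (φ.app V hV t) = resO (preimage_le hσ hV) u * D.ev V hV t := by
  have hgen : ∀ x : W, ∃ V : X.Opens, σ.base x.1 ∈ V ∧ V ≤ f ⁻¹ᵁ W ∧
      ∃ s : Γ(D.N, V), IsGen D.N V s := fun x => D.gen _ (le_preimage_preimage hσ W x.2)
  choose Vx hxV hVx sx hsx using hgen
  have ha : ∀ x : W, IsUnit (D.ev (Vx x) (hVx x) (sx x)) := fun x => D.ev_unit _ _ _ (hsx x)
  have ha' : ∀ x : W, IsUnit (D'.ev (Vx x) (hVx x) (φ.app (Vx x) (hVx x) (sx x))) :=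
    fun x => D'.ev_unit _ _ _ (isGen_map φ hφ (hVx x) (hsx x))
  have hinv : ∀ x : W, ∃ c : Γ(T, σ ⁻¹ᵁ (Vx x)), c * D.ev (Vx x) (hVx x) (sx x) = 1 :=
    fun x => (ha x).exists_left_inv
  choose c hc using hinv
  obtain ⟨ux, hux⟩ : ∃ ux : ∀ x : W, Γ(T, σ ⁻¹ᵁ (Vx x)),
      ∀ x, ux x = D'.ev (Vx x) (hVx x) (φ.app (Vx x) (hVx x) (sx x)) * c x := ⟨_, fun _ => rfl⟩
  have hWx : ∀ x : W, σ ⁻¹ᵁ (Vx x) ≤ W := fun x => preimage_le hσ (hVx x)
  have hcov : W ≤ ⨆ x : W, σ ⁻¹ᵁ (Vx x) := by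
    intro y hy
    exact Opens.mem_iSup.mpr ⟨⟨y, hy⟩, hxV ⟨y, hy⟩⟩
  -- the local formula
  have claim1 : ∀ (x : W) (V' : X.Opens) (h' : V' ≤ Vx x) (t : Γ(D.N, V')),
      D'.ev V' (h'.trans (hVx x)) (φ.app V' (h'.trans (hVx x)) t) =
        resO (σ.preimage_mono h') (ux x) * D.ev V' (h'.trans (hVx x)) t := by
    intro x V' h' t
    obtain ⟨r, rfl⟩ := (hsx x V' h').2 t
    show D'.ev V' _ (φ.app V' _ (r • res D.N h' (sx x))) =
      resO (σ.preimage_mono h') (ux x) * D.ev V' _ (r • res D.N h' (sx x))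
    rw [φ.map_smul, D'.ev_smul, D.ev_smul, φ.map_res (Vx x) V' (hVx x) h',
      D'.ev_res (Vx x) V' (hVx x) h', D.ev_res (Vx x) V' (hVx x) h']
    have e : resO (σ.preimage_mono h') (c x) *
        resO (σ.preimage_mono h') (D.ev (Vx x) (hVx x) (sx x)) = 1 := by
      rw [← resO_mul, hc, resO_one]
    rw [hux, resO_mul]
    linear_combination (-(σ.app V' r * resO (σ.preimage_mono h')
      (D'.ev (Vx x) (hVx x) (φ.app (Vx x) (hVx x) (sx x))))) * e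
  have hcompat : ∀ x y : W,
      resO (inf_le_left : σ ⁻¹ᵁ (Vx x) ⊓ σ ⁻¹ᵁ (Vx y) ≤ σ ⁻¹ᵁ (Vx x)) (ux x) =
        resO (inf_le_right : σ ⁻¹ᵁ (Vx x) ⊓ σ ⁻¹ᵁ (Vx y) ≤ σ ⁻¹ᵁ (Vx y)) (ux y) := by
    intro x y
    have h1 := claim1 x (Vx x ⊓ Vx y) inf_le_left (res D.N inf_le_left (sx x))
    have h2 := claim1 y (Vx x ⊓ Vx y) inf_le_right (res D.N inf_le_left (sx x))
    have h3 : IsUnit (D.ev (Vx x ⊓ Vx y) (inf_le_left.trans (hVx x))
        (res D.N inf_le_left (sx x))) :=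
      D.ev_unit _ _ _ ((hsx x).restrict _)
    exact h3.mul_left_injective (h1.symm.trans h2)
  obtain ⟨u, hu, -⟩ := secO_glue W (fun x : W => σ ⁻¹ᵁ (Vx x)) hWx hcov ux hcompat
  have huu : IsUnit u := by
    refine isUnit_of_locally u (fun x : W => σ ⁻¹ᵁ (Vx x)) hWx hcov (fun x => ?_)
    rw [hu x, hux]
    exact (ha' x).mul (IsUnit.of_mul_eq_one _ (hc x))
  refine ⟨u, huu, ?_⟩
  intro V hV t
  have hcovV : σ ⁻¹ᵁ V ≤ ⨆ x : W, σ ⁻¹ᵁ (V ⊓ Vx x) := by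
    intro y hy
    have hyW : y ∈ W := preimage_le hσ hV hy
    exact Opens.mem_iSup.mpr ⟨⟨y, hyW⟩, ⟨hy, hxV ⟨y, hyW⟩⟩⟩
  refine secO_ext (σ ⁻¹ᵁ V) (fun x : W => σ ⁻¹ᵁ (V ⊓ Vx x))
    (fun x => σ.preimage_mono inf_le_left) hcovV _ _ (fun x => ?_)
  rw [← D'.ev_res V (V ⊓ Vx x) hV inf_le_left, ← φ.map_res V (V ⊓ Vx x) hV inf_le_left,
    claim1 x (V ⊓ Vx x) inf_le_right, resO_mul, ← D.ev_res V (V ⊓ Vx x) hV inf_le_left,
    resO_resO, ← hu x, resO_resO]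

/-- **Existence of normalisations.** -/
theorem exists_norm (hσ : σ ≫ f = 𝟙 T) (D D' : RigOn f σ W)
    (φ : LocHom D.N D'.N (f ⁻¹ᵁ W)) (hφ : φ.IsIso) :
    ∃ ψ : LocHom D.N D'.N (f ⁻¹ᵁ W), ψ.IsIso ∧ IsNorm D D' ψ := by
  obtain ⟨u, huu, hu⟩ := exists_unit_factor hσ D D' φ hφ
  obtain ⟨v, hv⟩ := huu.exists_left_inv
  have hvu : IsUnit v := IsUnit.of_mul_eq_one _ hv
  have hfv : IsUnit (f.app W v) := hvu.map (f.app W).hom
  refine ⟨LocHom.smul (f.app W v) φ, isIso_smul_of_isUnit _ hfv φ hφ, ?_⟩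
  intro V hV t
  rw [LocHom.smul_app, D'.ev_smul, app_app_section hσ, hu, ← mul_assoc, ← resO_mul, hv,
    resO_one, one_mul]

end norm

/-! ### Separation -/

/-- **Abstract separation.**  Two rigidified line bundles which are isomorphic locally on the
base are isomorphic. -/
theorem sep_abstract {f : X ⟶ T} {σ : T ⟶ X} (hσ : σ ≫ f = 𝟙 T)
    (hO : ∀ (W : T.Opens) (a : Γ(X, f ⁻¹ᵁ W)), ∃ b : Γ(T, W), f.app W b = a)
    (D D' : RigOn f σ ⊤) {ι : Type*} (U : ι → T.Opens) (hU : ⨆ i, U i = ⊤)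
    (h : ∀ i, ∃ φ : LocHom D.N D'.N (f ⁻¹ᵁ U i), φ.IsIso) :
    ∃ φ : LocHom D.N D'.N ⊤, φ.IsIso := by
  have h' : ∀ i, ∃ ψ : LocHom D.N D'.N (f ⁻¹ᵁ U i), ψ.IsIso ∧
      IsNorm (D.restrict (le_top : U i ≤ ⊤)) (D'.restrict (le_top : U i ≤ ⊤)) ψ := by
    intro i
    obtain ⟨φ, hφ⟩ := h i
    exact exists_norm (W := U i) hσ (D.restrict le_top) (D'.restrict le_top) φ hφ
  choose ψ hψ hnψ using h'
  have hcompat : ∀ i j,
      (ψ i).restrict (inf_le_left : f ⁻¹ᵁ U i ⊓ f ⁻¹ᵁ U j ≤ f ⁻¹ᵁ U i) =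
        (ψ j).restrict (inf_le_right : f ⁻¹ᵁ U i ⊓ f ⁻¹ᵁ U j ≤ f ⁻¹ᵁ U j) := by
    intro i j
    exact norm_unique hσ hO (D.restrict (le_top : U i ⊓ U j ≤ ⊤))
      (D'.restrict (le_top : U i ⊓ U j ≤ ⊤)) _ _
      ((hψ i).restrict _) ((hnψ i).restrict (inf_le_left : U i ⊓ U j ≤ U i))
      ((hnψ j).restrict (inf_le_right : U i ⊓ U j ≤ U j))
  have hcov : (⊤ : X.Opens) ≤ ⨆ i, f ⁻¹ᵁ U i := by
    intro x _
    have hx : f.base x ∈ ⨆ i, U i := by rw [hU]; trivial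
    obtain ⟨i, hi⟩ := Opens.mem_iSup.mp hx
    exact Opens.mem_iSup.mpr ⟨i, hi⟩
  refine ⟨LocHom.glue (fun i => f ⁻¹ᵁ U i) hcov ψ hcompat,
    LocHom.isIso_of_cover (fun i => f ⁻¹ᵁ U i) (fun _ => le_top) hcov _ (fun i => ?_)⟩
  rw [LocHom.glue_restrict (fun i => f ⁻¹ᵁ U i) (fun _ => le_top) hcov ψ hcompat i]
  exact hψ i

/-! ### Gluing -/

/-- Normalised gluing data for rigidified local line bundles. -/
structure GlueData (f : X ⟶ T) (σ : T ⟶ X) (ι : Type u) where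
  hσ : σ ≫ f = 𝟙 T
  hO : ∀ (W : T.Opens) (a : Γ(X, f ⁻¹ᵁ W)), ∃ b : Γ(T, W), f.app W b = a
  U : ι → T.Opens
  hU : ⨆ i, U i = ⊤
  D : ∀ i, RigOn f σ (U i)
  φ : ∀ i j, LocHom (D i).N (D j).N (f ⁻¹ᵁ (U i ⊓ U j))
  hφ : ∀ i j, (φ i j).IsIso
  hn : ∀ i j, IsNorm ((D i).restrict (inf_le_left : U i ⊓ U j ≤ U i))
    ((D j).restrict (inf_le_right : U i ⊓ U j ≤ U j)) (φ i j)

namespace GlueData

variable {f : X ⟶ T} {σ : T ⟶ X} {ι : Type u} (G : GlueData f σ ι)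

lemma φ_self_app (i : ι) (V : X.Opens) (h : V ≤ f ⁻¹ᵁ (G.U i ⊓ G.U i)) (x : Γ((G.D i).N, V)) :
    (G.φ i i).app V h x = x := by
  have h1 : G.φ i i = LocHom.id (G.D i).N (f ⁻¹ᵁ (G.U i ⊓ G.U i)) :=
    norm_unique G.hσ G.hO ((G.D i).restrict (inf_le_left : G.U i ⊓ G.U i ≤ G.U i))
      ((G.D i).restrict (inf_le_right : G.U i ⊓ G.U i ≤ G.U i)) _ _ (G.hφ i i) (G.hn i i)
      (isNorm_id _)
  rw [h1]
  rfl

lemma φ_comp_app (i j k : ι) (V : X.Opens) (hij : V ≤ f ⁻¹ᵁ (G.U i ⊓ G.U j))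
    (hjk : V ≤ f ⁻¹ᵁ (G.U j ⊓ G.U k)) (hik : V ≤ f ⁻¹ᵁ (G.U i ⊓ G.U k))
    (x : Γ((G.D i).N, V)) :
    (G.φ j k).app V hjk ((G.φ i j).app V hij x) = (G.φ i k).app V hik x := by
  have hW3ij : G.U i ⊓ G.U j ⊓ G.U k ≤ G.U i ⊓ G.U j := inf_le_left
  have hW3jk : G.U i ⊓ G.U j ⊓ G.U k ≤ G.U j ⊓ G.U k :=
    le_inf (inf_le_left.trans inf_le_right) inf_le_right
  have hW3ik : G.U i ⊓ G.U j ⊓ G.U k ≤ G.U i ⊓ G.U k :=
    le_inf (inf_le_left.trans inf_le_left) inf_le_right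
  have h1 : (G.φ i k).restrict (f.preimage_mono hW3ik) =
      ((G.φ i j).restrict (f.preimage_mono hW3ij)).comp
        ((G.φ j k).restrict (f.preimage_mono hW3jk)) :=
    norm_unique G.hσ G.hO
      ((G.D i).restrict (hW3ij.trans inf_le_left : G.U i ⊓ G.U j ⊓ G.U k ≤ G.U i))
      ((G.D k).restrict (inf_le_right : G.U i ⊓ G.U j ⊓ G.U k ≤ G.U k)) _ _
      ((G.hφ i k).restrict _) ((G.hn i k).restrict hW3ik)
      (IsNorm.comp (D' := (G.D j).restrict (hW3ij.trans inf_le_right))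
        ((G.hn i j).restrict hW3ij) ((G.hn j k).restrict hW3jk))
  have hV : V ≤ f ⁻¹ᵁ (G.U i ⊓ G.U j ⊓ G.U k) := by
    intro y hy
    exact ⟨hij hy, (hjk hy).2⟩
  have h2 := congrArg (fun χ : LocHom (G.D i).N (G.D k).N (f ⁻¹ᵁ (G.U i ⊓ G.U j ⊓ G.U k)) =>
    χ.app V hV x) h1
  exact h2.symm

/-- The sections-level gluing datum. -/
noncomputable def secGlue : H79.SecGlue X ι where
  U i := f ⁻¹ᵁ (G.U i)
  N i := (G.D i).N
  φ i j V hV :=
    { toFun := (G.φ i j).app V hV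
      map_zero' := (G.φ i j).map_zero V hV
      map_add' := (G.φ i j).map_add V hV }
  φ_res i j V W hV hW x := (G.φ i j).map_res V W hV hW x
  φ_smul i j V hV r x := (G.φ i j).map_smul V hV r x
  φ_self i V hV x := G.φ_self_app i V hV x
  φ_comp i j k V hij hjk hik x := G.φ_comp_app i j k V hij hjk hik x

/-- The glued sheaf of modules. -/
noncomputable def L : X.Modules := G.secGlue.glued

/-- The identification of the glued sheaf with the `k`-th local one over `f⁻¹(U k)`. -/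
noncomputable def ψ (k : ι) : LocHom G.L (G.D k).N (f ⁻¹ᵁ (G.U k)) where
  app V h s := G.secGlue.gluedEquiv k V h s
  map_add V h s t := (G.secGlue.gluedEquiv k V h).map_add s t
  map_smul V h r s := G.secGlue.gluedEquiv_smul k V h r s
  map_res _ _ h h' s := G.secGlue.gluedEquiv_res k h h' s

lemma ψ_isIso (k : ι) : (G.ψ k).IsIso := fun V h => (G.secGlue.gluedEquiv k V h).bijective

lemma φ_ψ (i j : ι) (V : X.Opens) (h : V ≤ f ⁻¹ᵁ (G.U i ⊓ G.U j)) (s : Γ(G.L, V)) :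
    (G.φ i j).app V h ((G.ψ i).app V (h.trans (f.preimage_mono inf_le_left)) s) =
      (G.ψ j).app V (h.trans (f.preimage_mono inf_le_right)) s :=
  G.secGlue.φ_gluedEquiv i j V h s

/-- The local evaluations of a glued section agree. -/
lemma ev_ψ_indep (i j : ι) (V : X.Opens) (hi : V ≤ f ⁻¹ᵁ (G.U i)) (hj : V ≤ f ⁻¹ᵁ (G.U j))
    (s : Γ(G.L, V)) :
    (G.D i).ev V hi ((G.ψ i).app V hi s) = (G.D j).ev V hj ((G.ψ j).app V hj s) := by
  have h : V ≤ f ⁻¹ᵁ (G.U i ⊓ G.U j) := fun y hy => ⟨hi hy, hj hy⟩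
  rw [← G.φ_ψ i j V h s]
  exact (G.hn i j V h _).symm

lemma cover_preimage (V : X.Opens) : σ ⁻¹ᵁ V ≤ ⨆ i, σ ⁻¹ᵁ (V ⊓ f ⁻¹ᵁ (G.U i)) := by
  intro y hy
  have hx : f.base (σ.base y) ∈ ⨆ i, G.U i := by rw [G.hU]; trivial
  obtain ⟨i, hi⟩ := Opens.mem_iSup.mp hx
  exact Opens.mem_iSup.mpr ⟨i, ⟨hy, hi⟩⟩

lemma evL_exists (V : X.Opens) (s : Γ(G.L, V)) :
    ∃! z : Γ(T, σ ⁻¹ᵁ V), ∀ i,
      resO (σ.preimage_mono (inf_le_left : V ⊓ f ⁻¹ᵁ (G.U i) ≤ V)) z =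
        (G.D i).ev (V ⊓ f ⁻¹ᵁ (G.U i)) inf_le_right
          ((G.ψ i).app (V ⊓ f ⁻¹ᵁ (G.U i)) inf_le_right (res G.L inf_le_left s)) := by
  refine secO_glue (σ ⁻¹ᵁ V) (fun i => σ ⁻¹ᵁ (V ⊓ f ⁻¹ᵁ (G.U i)))
    (fun i => σ.preimage_mono inf_le_left) (G.cover_preimage V) _ ?_
  intro i j
  have e1 := (G.D i).ev_res (V ⊓ f ⁻¹ᵁ (G.U i))
    (V ⊓ f ⁻¹ᵁ (G.U i) ⊓ (V ⊓ f ⁻¹ᵁ (G.U j))) inf_le_right inf_le_left
    ((G.ψ i).app (V ⊓ f ⁻¹ᵁ (G.U i)) inf_le_right (res G.L inf_le_left s))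
  have e2 := (G.D j).ev_res (V ⊓ f ⁻¹ᵁ (G.U j))
    (V ⊓ f ⁻¹ᵁ (G.U i) ⊓ (V ⊓ f ⁻¹ᵁ (G.U j))) inf_le_right inf_le_right
    ((G.ψ j).app (V ⊓ f ⁻¹ᵁ (G.U j)) inf_le_right (res G.L inf_le_left s))
  rw [← (G.ψ i).map_res, res_res] at e1
  rw [← (G.ψ j).map_res, res_res] at e2
  exact e1.symm.trans ((G.ev_ψ_indep i j _ _ _ _).trans e2)

/-- Evaluation of sections of the glued sheaf. -/
noncomputable def evL (V : X.Opens) (s : Γ(G.L, V)) : Γ(T, σ ⁻¹ᵁ V) :=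
  (G.evL_exists V s).exists.choose

lemma evL_spec (V : X.Opens) (s : Γ(G.L, V)) (i : ι) (V' : X.Opens) (h' : V' ≤ V)
    (hi : V' ≤ f ⁻¹ᵁ (G.U i)) :
    resO (σ.preimage_mono h') (G.evL V s) =
      (G.D i).ev V' hi ((G.ψ i).app V' hi (res G.L h' s)) := by
  have h1 := (G.evL_exists V s).exists.choose_spec i
  have hle : V' ≤ V ⊓ f ⁻¹ᵁ (G.U i) := le_inf h' hi
  have h2 := congrArg (resO (σ.preimage_mono hle)) h1
  rw [resO_resO, ← (G.D i).ev_res (V ⊓ f ⁻¹ᵁ (G.U i)) V' inf_le_right hle,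
    ← (G.ψ i).map_res, res_res] at h2
  exact h2

lemma evL_ext (V : X.Opens) (z z' : Γ(T, σ ⁻¹ᵁ V))
    (h : ∀ i, resO (σ.preimage_mono (inf_le_left : V ⊓ f ⁻¹ᵁ (G.U i) ≤ V)) z =
      resO (σ.preimage_mono (inf_le_left : V ⊓ f ⁻¹ᵁ (G.U i) ≤ V)) z') : z = z' :=
  secO_ext (σ ⁻¹ᵁ V) (fun i => σ ⁻¹ᵁ (V ⊓ f ⁻¹ᵁ (G.U i)))
    (fun _ => σ.preimage_mono inf_le_left) (G.cover_preimage V) z z' h

lemma evL_add (V : X.Opens) (s t : Γ(G.L, V)) : G.evL V (s + t) = G.evL V s + G.evL V t := by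
  refine G.evL_ext V _ _ (fun i => ?_)
  rw [resO_add, G.evL_spec V _ i _ inf_le_left inf_le_right,
    G.evL_spec V s i _ inf_le_left inf_le_right, G.evL_spec V t i _ inf_le_left inf_le_right,
    res_add, (G.ψ i).map_add, (G.D i).ev_add]

lemma evL_smul (V : X.Opens) (r : Γ(X, V)) (s : Γ(G.L, V)) :
    G.evL V (r • s) = σ.app V r * G.evL V s := by
  refine G.evL_ext V _ _ (fun i => ?_)
  rw [resO_mul, G.evL_spec V _ i _ inf_le_left inf_le_right,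
    G.evL_spec V s i _ inf_le_left inf_le_right, res_smul, (G.ψ i).map_smul, (G.D i).ev_smul,
    app_resO]

lemma evL_res (V V' : X.Opens) (h' : V' ≤ V) (s : Γ(G.L, V)) :
    G.evL V' (res G.L h' s) = resO (σ.preimage_mono h') (G.evL V s) := by
  refine G.evL_ext V' _ _ (fun i => ?_)
  rw [resO_resO, G.evL_spec V' _ i _ inf_le_left inf_le_right,
    G.evL_spec V s i (V' ⊓ f ⁻¹ᵁ (G.U i)) (inf_le_left.trans h') inf_le_right, res_res]

lemma evL_unit (V : X.Opens) (s : Γ(G.L, V)) (hs : IsGen G.L V s) : IsUnit (G.evL V s) := by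
  refine isUnit_of_locally _ (fun i => σ ⁻¹ᵁ (V ⊓ f ⁻¹ᵁ (G.U i)))
    (fun i => σ.preimage_mono inf_le_left) (G.cover_preimage V) (fun i => ?_)
  rw [G.evL_spec V s i _ inf_le_left inf_le_right]
  exact (G.D i).ev_unit _ _ _ (isGen_map (G.ψ i) (G.ψ_isIso i) _ (hs.restrict _))

lemma locInvOn_L : LocInvOn G.L (f ⁻¹ᵁ ⊤) := by
  intro x _
  have hx : f.base x ∈ ⨆ i, G.U i := by rw [G.hU]; trivial
  obtain ⟨i, hi⟩ := Opens.mem_iSup.mp hx
  obtain ⟨V, hxV, hV, s, hs⟩ := (G.D i).gen x hi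
  exact ⟨V, hxV, fun _ _ => trivial, ((G.ψ i).inv (G.ψ_isIso i)).app V hV s,
    isGen_map _ (LocHom.isIso_inv _ _) hV hs⟩

/-- The glued rigidified line bundle. -/
noncomputable def rig : RigOn f σ ⊤ where
  N := G.L
  gen := G.locInvOn_L
  ev V _ := G.evL V
  ev_add V _ := G.evL_add V
  ev_smul V _ := G.evL_smul V
  ev_res V V' _ h' := G.evL_res V V' h'
  ev_unit V _ s hs := G.evL_unit V s hs

end GlueData

/-- **Abstract gluing.**  Rigidified local line bundles over the members of an open cover of the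
base which are isomorphic on the overlaps glue to a rigidified line bundle. -/
theorem glue_abstract {f : X ⟶ T} {σ : T ⟶ X} (hσ : σ ≫ f = 𝟙 T)
    (hO : ∀ (W : T.Opens) (a : Γ(X, f ⁻¹ᵁ W)), ∃ b : Γ(T, W), f.app W b = a)
    {ι : Type u} (U : ι → T.Opens) (hU : ⨆ i, U i = ⊤) (D : ∀ i, RigOn f σ (U i))
    (h : ∀ i j, ∃ φ : LocHom (D i).N (D j).N (f ⁻¹ᵁ (U i ⊓ U j)), φ.IsIso) :
    ∃ E : RigOn f σ ⊤, ∀ i, ∃ ψ : LocHom E.N (D i).N (f ⁻¹ᵁ (U i)), ψ.IsIso := by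
  have h' : ∀ i j, ∃ ψ : LocHom (D i).N (D j).N (f ⁻¹ᵁ (U i ⊓ U j)), ψ.IsIso ∧
      IsNorm ((D i).restrict (inf_le_left : U i ⊓ U j ≤ U i))
        ((D j).restrict (inf_le_right : U i ⊓ U j ≤ U j)) ψ := by
    intro i j
    obtain ⟨φ, hφ⟩ := h i j
    exact exists_norm (W := U i ⊓ U j) hσ ((D i).restrict inf_le_left)
      ((D j).restrict inf_le_right) φ hφ
  choose φ hφ hn using h'
  let G : GlueData f σ ι :=
    { hσ := hσ, hO := hO, U := U, hU := hU, D := D, φ := φ, hφ := hφ, hn := hn }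
  exact ⟨G.rig, fun i => ⟨G.ψ i, G.ψ_isIso i⟩⟩

end Fermat.Agent.S25.ZAR.H1891
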